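import Mathlib
import Fermat.Agent.MUL.S17.H.Global
import Fermat.Agent.MUL.S17.H.Move
import Fermat.Agent.MUL.S17.H.ImmSec

section MergeWrap_S17_H_Pairing_Defs -- from S17/H/Pairing/Defs.lean

set_option autoImplicit false

/-!
# S17, package H, seat GA (the height pairing): internal definitions and Props

Sub-architect: helper35.  Target: `pairingThm_of ... : PairingThm S` (file `Pairing/Main.lean`).

Notation: `F = FN N`, `h = hRR N`, `S : HSetup N`, `V₁ = secSpace S.P₀ S.e 1 = L(e P₀)`.

The proof: for a principal Galois-stable divisor `D = D⁺ - D⁻` (`deg D⁺ ≤ 3 s`) and a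
Galois-stable divisor `b` of degree `0` with support disjoint from `D⁺`, `D⁻`:
`|I(b, D)| ≤ C · dsize b`  (`PrincipalBound`).  Indeed `D = div f₁ - div f₂` with
`f₁, f₂ ∈ V₁` (`exists_sections`, Riemann's inequality), the local decomposition theorem at
`j = 1` applied to `f₁` and to `f₂` at a point `Q` of `b` (same multiplicity `m = E(Q)`, so the
`θ`-terms cancel) gives `log |(f₁/f₂)(Q)|_v = κ_v - Σ_c D(c) g_v(Q,c) + O(γ_v)` (`LocalQuot`),
the constant `κ_v` disappears because `deg b = 0`, and `Σ_v Σ_Q b(Q) log |(f₁/f₂)(Q)|_v = 0`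
by the product formula (`ProdFormula`).  The pairing is then defined by choice of admissible
representatives (`MoveRep`) and symmetrised.

Seats (files in `Fermat/Agent/S17/H/Pairing/`):
* PA `Green.lean`     : `glocFinite S : GlocFinite S`, `gloc_symm`, `gloc_self`, bilinearity of
                        `iPair`                                                   (helper35)
* G1 `Prod.lean`      : `sum_log_val_eq_zero` = `ProdFormula S`                   (helper6)
* G2 `Principal.lean` : `iPair_divOf_bounded` = `PrincipalBounded S`, from `LocalDecomp` at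
                        `j = 1` and G1 (suggested intermediate Prop: `LocalQuot`) (helper77)
* PE `MoveRep.lean`   : `moveRep S : MoveRep S`                                   (helper30)
* G4 `Main.lean`      : `pairingThm_of S hMove hPB : PairingThm S`                (helper35)
-/

noncomputable section

open AlgebraicCurve ModularCurve Fermat.Agent.RR

namespace Fermat.Agent.S17.Pairing

variable {N : ℕ} [NeZero N]

/-- the Riemann–Roch hypotheses for `F = FN N` -/
theorem hRR (N : ℕ) [NeZero N] : IsRRField Qbar (FN N) := Fermat.Agent.RRMod.isRRField_bar N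

/-- linearised `gsum` (no filter `c ≠ P`; recall `g_v(P,P) = 0`): `Σ_c Z(c) g_v(P,c)` -/
def glin (S : HSetup N) (v : S.𝔸.ι) (P : PtN N) (Z : DivN N) : ℝ :=
  ∑ c ∈ Z.support, (Z c : ℝ) * gloc S.𝔸 v S.φ P c

/-- **Seat PA (GREEN).**  `g_v(P,Q) = 0` for almost all `v` (all `P`, `Q`). -/
def GlocFinite (S : HSetup N) : Prop :=
  ∀ P Q : PtN N, {v : S.𝔸.ι | gloc S.𝔸 v S.φ P Q ≠ 0}.Finite

/-- **Seat PC (PROD).**  Product formula for `∏_Q f(Q)^{b(Q)}`: `f ≠ 0` with Galois-stable
divisor, `b` Galois-stable of degree `0`, `f` a unit at all points of `b`. -/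
def ProdFormula (S : HSetup N) : Prop :=
  ∀ (f : FN N) (b : DivN N), f ≠ 0 → GalStable N (divOf (hRR N) f) → GalStable N b →
    Divisor.degree b = 0 → (∀ Q ∈ b.support, Q.ord f = 0) →
    ∑ᶠ v : S.𝔸.ι, ∑ Q ∈ b.support, (b Q : ℝ) * Real.log (S.𝔸.abv v (val Q f)) = 0

/-- **Seat PD (LOCALQUOT).**  The local decomposition theorem for a quotient `f₁ / f₂` of two
sections of `V₁` at a point `Q` where they vanish to the same order. -/
def LocalQuot (S : HSetup N) {d : ℕ}
    (b : Module.Basis (Fin (d + 1)) Qbar (secSpace S.P₀ S.e 1)) (γ : MConst S.𝔸) : Prop :=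
  ∀ (v : S.𝔸.ι) (f₁ f₂ : FN N), f₁ ∈ secSpace S.P₀ S.e 1 → f₁ ≠ 0 →
    f₂ ∈ secSpace S.P₀ S.e 1 → f₂ ≠ 0 → ∀ Q : PtN N, Q.ord f₁ = Q.ord f₂ →
      |Real.log (S.𝔸.abv v (val Q (f₁ / f₂)))
        - (Real.log (cnorm S.𝔸 v b f₁) - Real.log (cnorm S.𝔸 v b f₂))
        + glin S v Q (divOf (hRR N) f₁ - divOf (hRR N) f₂)| ≤ 2 * γ v

/-- **Seat PE (MOVE, wired).**  Admissible representatives avoiding a finite set. -/
def MoveRep (S : HSetup N) : Prop :=
  ∀ (x : MW N) (T : Finset (PtN N)), ∃ a : DivN N, IsRep S x a ∧ ∀ P ∈ T, a P = 0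

/-- **Seat G2 (GFUND / PRINCIPAL).**  `|I(div u, b)| ≤ C` for Galois-stable principal divisors
`div u` and Galois-stable `b` of degree `0`, of bounded size, with disjoint supports. -/
def PrincipalBounded (S : HSetup N) : Prop :=
  ∃ C : ℝ, ∀ (u : FN N) (b : DivN N), u ≠ 0 → GalStable N (divOf (hRR N) u) → GalStable N b →
    Divisor.degree b = 0 → dsize (divOf (hRR N) u) ≤ 12 * S.s → dsize b ≤ 4 * S.s →
    Disjoint (divOf (hRR N) u).support b.support → |iPair S (divOf (hRR N) u) b| ≤ C

end Fermat.Agent.S17.Pairing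
end
end MergeWrap_S17_H_Pairing_Defs
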