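import Mathlib
import Fermat.Agent.MUL.S17.H.Pairing.Green
import Fermat.Agent.MUL.S17.H.MoveGlobal

section MergeWrap_S17_H_Pairing_LocalQuot -- from S17/H/Pairing/LocalQuot.lean

set_option autoImplicit false
set_option linter.unusedSectionVars false

/-!
# S17, package H, seat G2, local part: the local decomposition theorem for a quotient

`exists_localQuot S b hLD : ∃ γ, LocalQuot S b γ`: for `f₁, f₂ ∈ V₁ = L(e P₀)`, nonzero, and a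
place `Q` with `ord_Q f₁ = ord_Q f₂`:
`| log |(f₁/f₂)(Q)|_v - (log ‖f₁‖_v - log ‖f₂‖_v) + Σ_c (div f₁ - div f₂)(c) g_v(Q,c) | ≤ 2 γ_v`.
(`LocalDecomp` at `j = 1` for `f₁` and for `f₂`, same uniformizer and same multiplicity.)
-/

noncomputable section

open AlgebraicCurve ModularCurve Fermat.Agent.RR

namespace Fermat.Agent.S17.Pairing

variable {N : ℕ} [NeZero N]

theorem e_ge_two_genus (S : HSetup N) : 2 * genusFF Qbar (FN N) ≤ S.e := by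
  have := S.e_large
  omega

/-- the quotient of the sizes of the leading terms of two sections with the same multiplicity
at `Q` is the size of the value of the quotient -/
theorem secSize_div_secSize (S : HSetup N) (v : S.𝔸.ι) {f₁ f₂ : FN N} (hf₁ : f₁ ≠ 0)
    (hf₂ : f₂ ≠ 0) (Q : PtN N) {π : FN N} (hπ : Q.ord π = 1) (m : ℕ)
    (hm₁ : (m : ℤ) = zdiv (hRR N) S.P₀ S.e 1 f₁ Q) (hm₂ : (m : ℤ) = zdiv (hRR N) S.P₀ S.e 1 f₂ Q) :
    secSize S.𝔸 v S.φ 1 Q π m f₁ / secSize S.𝔸 v S.φ 1 Q π m f₂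
      = S.𝔸.abv v (val Q (f₁ / f₂)) := by
  have he := e_ge_two_genus S
  have hπ0 : π ≠ 0 := by
    rintro rfl
    rw [Q.ord_zero] at hπ
    exact zero_ne_one hπ
  have hp0 : S.φ (pivot S.φ Q) ≠ 0 := S.isEmbBasis.ne_zero _
  have hd0 : S.φ (pivot S.φ Q) ^ 1 * π ^ m ≠ 0 :=
    mul_ne_zero (pow_ne_zero _ hp0) (pow_ne_zero _ hπ0)
  have o1 := S.isEmbBasis.ord_lead (hRR N) he 1 Q hπ hf₁ m hm₁
  have o2 := S.isEmbBasis.ord_lead (hRR N) he 1 Q hπ hf₂ m hm₂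
  have hn := pow_pos (S.isEmbBasis.vnorm_coord_pos S.𝔸 v Q) 1
  have hquot : f₁ / f₂ = (f₁ / (S.φ (pivot S.φ Q) ^ 1 * π ^ m))
      / (f₂ / (S.φ (pivot S.φ Q) ^ 1 * π ^ m)) := by
    field_simp
  unfold secSize
  rw [div_div_div_cancel_right₀ hn.ne', hquot]
  unfold val
  rw [Pts.ev_div (hRR N) Q o1.ge o2, map_div₀]

/-- **Seat G2, local part.** -/
theorem exists_localQuot (S : HSetup N) {d : ℕ}
    (b : Module.Basis (Fin (d + 1)) Qbar (secSpace S.P₀ S.e 1))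
    (hLD : LocalDecomp S.𝔸 (hRR N) S.P₀ S.e S.φ 1 b) : ∃ γ : MConst S.𝔸, LocalQuot S b γ := by
  obtain ⟨γ, hγ⟩ := hLD
  refine ⟨γ, ?_⟩
  intro v f₁ f₂ hf₁ hf₁0 hf₂ hf₂0 Q hord
  have he := e_ge_two_genus S
  obtain ⟨π, hπ⟩ := exists_uniformizer Q
  have hz₁ := zdiv_nonneg (hRR N) S.P₀ S.e 1 hf₁ hf₁0 Q
  have hz : zdiv (hRR N) S.P₀ S.e 1 f₂ Q = zdiv (hRR N) S.P₀ S.e 1 f₁ Q := by
    rw [zdiv_apply, zdiv_apply, hord]
  obtain ⟨m, hm⟩ := Int.eq_ofNat_of_zero_le hz₁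
  have hm₁ : (m : ℤ) = zdiv (hRR N) S.P₀ S.e 1 f₁ Q := hm.symm
  have hm₂ : (m : ℤ) = zdiv (hRR N) S.P₀ S.e 1 f₂ Q := by rw [hz]; exact hm₁
  have h1 := abs_le.mp (hγ v f₁ hf₁ hf₁0 Q π hπ m hm₁)
  have h2 := abs_le.mp (hγ v f₂ hf₂ hf₂0 Q π hπ m hm₂)
  have p1 := S.isEmbBasis.secSize_pos (hRR N) he S.𝔸 v 1 Q hπ hf₁0 m hm₁
  have p2 := S.isEmbBasis.secSize_pos (hRR N) he S.𝔸 v 1 Q hπ hf₂0 m hm₂
  have hlog : Real.log (S.𝔸.abv v (val Q (f₁ / f₂)))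
      = Real.log (secSize S.𝔸 v S.φ 1 Q π m f₁) - Real.log (secSize S.𝔸 v S.φ 1 Q π m f₂) := by
    rw [← secSize_div_secSize S v hf₁0 hf₂0 Q hπ m hm₁ hm₂, Real.log_div p1.ne' p2.ne']
  have hg : glin S v Q (divOf (hRR N) f₁ - divOf (hRR N) f₂)
      = gsum S.𝔸 v S.φ Q (zdiv (hRR N) S.P₀ S.e 1 f₁)
        - gsum S.𝔸 v S.φ Q (zdiv (hRR N) S.P₀ S.e 1 f₂) := by
    rw [gsum_eq_glin, gsum_eq_glin, ← glin_sub]
    congr 1
    unfold zdiv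
    abel
  rw [hlog, hg, abs_le]
  constructor <;> linarith [h1.1, h1.2, h2.1, h2.2]

end Fermat.Agent.S17.Pairing
end
end MergeWrap_S17_H_Pairing_LocalQuot
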