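import Mathlib
import Fermat.Agent.MUL.S17.H.Pairing.LocalQuot
import Fermat.Agent.MUL.S17.H.Pairing.Sections
import Fermat.Agent.MUL.S17.H.MoveGlobal
import Fermat.Agent.MUL.S17.Pts.Galois
import Fermat.Agent.MUL.S17.Rat.Modular

section MergeWrap_S17_H_Pairing_LocalQuotLC -- from S17/H/Pairing/LocalQuotLC.lean

set_option autoImplicit false
set_option linter.unusedSectionVars false

/-!
# S17, package H: the local decomposition theorem for a quotient, with leading coefficients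

For `f₁, f₂ ∈ V₁ = L(e P₀)`, nonzero, `u = f₁ / f₂`, ANY place `Q`, `π` a uniformizer at `Q`,
`lcoef Q π u = val_Q (u / π ^ ord_Q u)` the leading coefficient of `u` at `Q`:

`| log |lcoef Q π u|_v - (log ‖f₁‖_v - log ‖f₂‖_v) - ord_Q u · log θ_v(Q;π)
     + Σ_c (div u)(c) g_v(Q,c) | ≤ 2 γ_v`      (`exists_localQuotLC`).

(The sum over `c` is unfiltered: `g_v(Q,Q) = 0`.)  For `ord_Q u = 0` this is `LocalQuot`.
Used by seat G5 (ADJ).
-/

noncomputable section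

open AlgebraicCurve ModularCurve Fermat.Agent.RR

namespace Fermat.Agent.S17.Pairing

variable {N : ℕ} [NeZero N]

/-- the leading coefficient of `u` at `Q` with respect to the uniformizer `π` -/
def lcoef (Q : PtN N) (π u : FN N) : Qbar := val Q (u / π ^ (Q.ord u))

/-- **the local decomposition theorem for a quotient, with leading coefficients** -/
def LocalQuotLC (S : HSetup N) {d : ℕ}
    (b : Module.Basis (Fin (d + 1)) Qbar (secSpace S.P₀ S.e 1)) (γ : MConst S.𝔸) : Prop :=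
  ∀ (v : S.𝔸.ι) (f₁ f₂ : FN N), f₁ ∈ secSpace S.P₀ S.e 1 → f₁ ≠ 0 →
    f₂ ∈ secSpace S.P₀ S.e 1 → f₂ ≠ 0 → ∀ (Q : PtN N) (π : FN N), Q.ord π = 1 →
      |Real.log (S.𝔸.abv v (lcoef Q π (f₁ / f₂)))
        - (Real.log (cnorm S.𝔸 v b f₁) - Real.log (cnorm S.𝔸 v b f₂))
        - (Q.ord (f₁ / f₂) : ℝ) * Real.log (theta S.𝔸 v S.φ Q π)
        + glin S v Q (divOf (hRR N) f₁ - divOf (hRR N) f₂)| ≤ 2 * γ v

theorem ord_div' (Q : PtN N) {f₁ f₂ : FN N} (hf₁ : f₁ ≠ 0) (hf₂ : f₂ ≠ 0) :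
    Q.ord (f₁ / f₂) = Q.ord f₁ - Q.ord f₂ := by
  rw [div_eq_mul_inv, Q.ord_mul hf₁ (inv_ne_zero hf₂), Q.ord_inv]
  ring

/-- quotient of the sizes of the leading terms = size of the leading coefficient of the
quotient -/
theorem secSize_div_secSize_lc (S : HSetup N) (v : S.𝔸.ι) {f₁ f₂ : FN N} (hf₁ : f₁ ≠ 0)
    (hf₂ : f₂ ≠ 0) (Q : PtN N) {π : FN N} (hπ : Q.ord π = 1) (m₁ m₂ : ℕ)
    (hm₁ : (m₁ : ℤ) = zdiv (hRR N) S.P₀ S.e 1 f₁ Q)
    (hm₂ : (m₂ : ℤ) = zdiv (hRR N) S.P₀ S.e 1 f₂ Q) :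
    secSize S.𝔸 v S.φ 1 Q π m₁ f₁ / secSize S.𝔸 v S.φ 1 Q π m₂ f₂
      = S.𝔸.abv v (lcoef Q π (f₁ / f₂)) := by
  have he := e_ge_two_genus S
  have hπ0 : π ≠ 0 := by
    rintro rfl
    rw [Q.ord_zero] at hπ
    exact zero_ne_one hπ
  have hp0 : S.φ (pivot S.φ Q) ≠ 0 := S.isEmbBasis.ne_zero _
  have o1 := S.isEmbBasis.ord_lead (hRR N) he 1 Q hπ hf₁ m₁ hm₁
  have o2 := S.isEmbBasis.ord_lead (hRR N) he 1 Q hπ hf₂ m₂ hm₂
  have hn := pow_pos (S.isEmbBasis.vnorm_coord_pos S.𝔸 v Q) 1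
  have hord : Q.ord (f₁ / f₂) = (m₁ : ℤ) - (m₂ : ℤ) := by
    rw [ord_div' Q hf₁ hf₂, hm₁, hm₂, zdiv_apply, zdiv_apply]
    ring
  have hquot : f₁ / f₂ / π ^ (Q.ord (f₁ / f₂)) = (f₁ / (S.φ (pivot S.φ Q) ^ 1 * π ^ m₁))
      / (f₂ / (S.φ (pivot S.φ Q) ^ 1 * π ^ m₂)) := by
    rw [hord, zpow_sub₀ hπ0, zpow_natCast, zpow_natCast]
    field_simp
  unfold secSize lcoef
  rw [div_div_div_cancel_right₀ hn.ne', hquot]
  unfold val
  rw [Pts.ev_div (hRR N) Q o1.ge o2, map_div₀]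

/-- **the local decomposition theorem for a quotient, with leading coefficients**, from
`LocalDecomp` at `j = 1` -/
theorem exists_localQuotLC (S : HSetup N) {d : ℕ}
    (b : Module.Basis (Fin (d + 1)) Qbar (secSpace S.P₀ S.e 1))
    (hLD : LocalDecomp S.𝔸 (hRR N) S.P₀ S.e S.φ 1 b) : ∃ γ : MConst S.𝔸, LocalQuotLC S b γ := by
  obtain ⟨γ, hγ⟩ := hLD
  refine ⟨γ, ?_⟩
  intro v f₁ f₂ hf₁ hf₁0 hf₂ hf₂0 Q π hπ
  have he := e_ge_two_genus S
  obtain ⟨m₁, hm₁'⟩ := Int.eq_ofNat_of_zero_le (zdiv_nonneg (hRR N) S.P₀ S.e 1 hf₁ hf₁0 Q)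
  obtain ⟨m₂, hm₂'⟩ := Int.eq_ofNat_of_zero_le (zdiv_nonneg (hRR N) S.P₀ S.e 1 hf₂ hf₂0 Q)
  have hm₁ : (m₁ : ℤ) = zdiv (hRR N) S.P₀ S.e 1 f₁ Q := hm₁'.symm
  have hm₂ : (m₂ : ℤ) = zdiv (hRR N) S.P₀ S.e 1 f₂ Q := hm₂'.symm
  have h1 := abs_le.mp (hγ v f₁ hf₁ hf₁0 Q π hπ m₁ hm₁)
  have h2 := abs_le.mp (hγ v f₂ hf₂ hf₂0 Q π hπ m₂ hm₂)
  have p1 := S.isEmbBasis.secSize_pos (hRR N) he S.𝔸 v 1 Q hπ hf₁0 m₁ hm₁
  have p2 := S.isEmbBasis.secSize_pos (hRR N) he S.𝔸 v 1 Q hπ hf₂0 m₂ hm₂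
  have hlog : Real.log (S.𝔸.abv v (lcoef Q π (f₁ / f₂)))
      = Real.log (secSize S.𝔸 v S.φ 1 Q π m₁ f₁) - Real.log (secSize S.𝔸 v S.φ 1 Q π m₂ f₂) := by
    rw [← secSize_div_secSize_lc S v hf₁0 hf₂0 Q hπ m₁ m₂ hm₁ hm₂, Real.log_div p1.ne' p2.ne']
  have hg : glin S v Q (divOf (hRR N) f₁ - divOf (hRR N) f₂)
      = gsum S.𝔸 v S.φ Q (zdiv (hRR N) S.P₀ S.e 1 f₁)
        - gsum S.𝔸 v S.φ Q (zdiv (hRR N) S.P₀ S.e 1 f₂) := by
    rw [gsum_eq_glin, gsum_eq_glin, ← glin_sub]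
    congr 1
    unfold zdiv
    abel
  have hord : (Q.ord (f₁ / f₂) : ℝ) = (m₁ : ℝ) - (m₂ : ℝ) := by
    have : Q.ord (f₁ / f₂) = (m₁ : ℤ) - (m₂ : ℤ) := by
      rw [ord_div' Q hf₁0 hf₂0, hm₁, hm₂, zdiv_apply, zdiv_apply]
      ring
    rw [this]
    push_cast
    ring
  rw [hlog, hg, hord, abs_le]
  constructor <;> nlinarith [h1.1, h1.2, h2.1, h2.2]

end Fermat.Agent.S17.Pairing
end
end MergeWrap_S17_H_Pairing_LocalQuotLC

section MergeWrap_S17_H_Pairing_ProdLC -- from S17/H/Pairing/ProdLC.lean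

set_option autoImplicit false
set_option linter.unusedSectionVars false

/-!
# S17, package H: the product formula with leading coefficients

`u ≠ 0` with Galois-stable divisor, `b` a Galois-stable divisor of degree `0` (ANY support),
`π` a Galois-equivariant family of uniformizers at the points of `b`.  Then
`Λ = ∏_Q lcoef Q (π Q) u ^ b(Q)` is a nonzero rational number and

`Σ_v Σ_Q b(Q) log |lcoef Q (π Q) u|_v = 0`          (`sum_log_lcoef_eq_zero`).

Special case `ord_Q u = 0` on `supp b`: `sum_log_val_eq_zero'` (= seat G1, `ProdFormula S`).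
-/

noncomputable section

open AlgebraicCurve ModularCurve Fermat.Agent.RR

namespace Fermat.Agent.S17.Pairing

variable {N : ℕ} [NeZero N]

theorem prod_zpow_const {ι : Type*} (s : Finset ι) {c : Qbar} (hc : c ≠ 0) (n : ι → ℤ) :
    ∏ i ∈ s, c ^ (n i) = c ^ (∑ i ∈ s, n i) := by
  classical
  induction s using Finset.induction_on with
  | empty => simp
  | insert a s ha ih => rw [Finset.prod_insert ha, Finset.sum_insert ha, ih, zpow_add₀ hc]

/-! ### the Galois action -/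

/-- the semilinear automorphism of `F` attached to `σ` -/
abbrev gal (N : ℕ) (σ : GQ) : SemilinearAut Qbar (FN N) :=
  arithmeticGalois (modularFunctionFieldFull N) σ

theorem val_gal (σ : GQ) (P : PtN N) (f : FN N) :
    val (gal N σ • P) (gal N σ • f) = σ (val P f) :=
  Pts.evBar_galois N σ P f

theorem ord_gal (σ : GQ) (P : PtN N) (f : FN N) :
    (gal N σ • P).ord (gal N σ • f) = P.ord f :=
  SemilinearAut.ord_smul _ P f

theorem gal_zpow (σ : GQ) (f : FN N) (n : ℤ) : gal N σ • (f ^ n) = (gal N σ • f) ^ n :=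
  map_zpow₀ (MulSemiringAction.toRingHom (SemilinearAut Qbar (FN N)) (FN N) (gal N σ)) f n

theorem gal_div (σ : GQ) (f g : FN N) : gal N σ • (f / g) = (gal N σ • f) / (gal N σ • g) :=
  map_div₀ (MulSemiringAction.toRingHom (SemilinearAut Qbar (FN N)) (FN N) (gal N σ)) f g

theorem gal_ne_zero (σ : GQ) {f : FN N} (hf : f ≠ 0) : gal N σ • f ≠ 0 := by
  intro h0
  apply hf
  have := congrArg (fun x => (gal N σ)⁻¹ • x) h0
  simpa using this

/-- a function with Galois-stable divisor is Galois-fixed up to a constant -/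
theorem exists_const_gal (u : FN N) (hu : u ≠ 0) (hdiv : GalStable N (divOf (hRR N) u))
    (σ : GQ) : ∃ c : Qbar, c ≠ 0 ∧ gal N σ • u = algebraMap Qbar (FN N) c * u := by
  have h := hRR N
  have hσu : gal N σ • u ≠ 0 := gal_ne_zero σ hu
  have h1 : divOf h (gal N σ • u) = divOf h u := by
    rw [← Move.smul_divOf]
    exact hdiv σ
  have h2 : divOf h ((gal N σ • u) / u) = 0 := by
    rw [divOf_div _ _ hσu hu, h1, sub_self]
  have hq0 : (gal N σ • u) / u ≠ 0 := div_ne_zero hσu hu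
  have h3 : (gal N σ • u) / u ∈ riemannRochSpace (0 : DivN N) := by
    rw [mem_riemannRochSpace_iff_le h hq0, h2, neg_zero]
  obtain ⟨c, hc⟩ := (mem_riemannRochSpace_zero_iff h _).mp h3
  refine ⟨c, ?_, ?_⟩
  · rintro rfl
    rw [map_zero] at hc
    exact hq0 hc.symm
  · rw [hc, div_mul_cancel₀ _ hu]

/-! ### leading coefficients -/

theorem ord_lcoef_arg (Q : PtN N) {π u : FN N} (hπ : Q.ord π = 1) (hu : u ≠ 0) :
    Q.ord (u / π ^ (Q.ord u)) = 0 := by
  have hπ0 : π ≠ 0 := by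
    rintro rfl
    rw [Q.ord_zero] at hπ
    exact zero_ne_one hπ
  rw [ord_div' Q hu (zpow_ne_zero _ hπ0), Q.ord_zpow, hπ]
  ring

theorem lcoef_ne_zero (Q : PtN N) {π u : FN N} (hπ : Q.ord π = 1) (hu : u ≠ 0) :
    lcoef Q π u ≠ 0 := by
  have hπ0 : π ≠ 0 := by
    rintro rfl
    rw [Q.ord_zero] at hπ
    exact zero_ne_one hπ
  exact Pts.ev_ne_zero_of_ord_eq_zero (hRR N) Q (div_ne_zero hu (zpow_ne_zero _ hπ0))
    (ord_lcoef_arg Q hπ hu)

/-- for a unit `u` at `Q` the leading coefficient is the value -/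
theorem lcoef_of_ord_eq_zero (Q : PtN N) (π : FN N) {u : FN N} (hu : Q.ord u = 0) :
    lcoef Q π u = val Q u := by
  unfold lcoef
  rw [hu, zpow_zero, div_one]

/-- leading coefficient of a constant multiple -/
theorem lcoef_const_mul (Q : PtN N) {π u : FN N} (hπ : Q.ord π = 1) (hu : u ≠ 0) {c : Qbar}
    (hc : c ≠ 0) : lcoef Q π (algebraMap Qbar (FN N) c * u) = c * lcoef Q π u := by
  have hc' : algebraMap Qbar (FN N) c ≠ 0 := by
    intro h0
    exact hc ((map_eq_zero (algebraMap Qbar (FN N))).mp h0)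
  have hordc : Q.ord (algebraMap Qbar (FN N) c) = 0 := by
    have h1 := Pts.ev_algebraMap Q c
    by_contra hne
    rcases lt_or_gt_of_ne hne with hlt | hgt
    · rw [Pts.ev_of_ord_neg hlt] at h1
      exact hc h1.symm
    · have := (Pts.ev_eq_zero_iff (hRR N) Q hc' hgt.le).mpr hgt
      rw [h1] at this
      exact hc this
  have hord : Q.ord (algebraMap Qbar (FN N) c * u) = Q.ord u := by
    rw [Q.ord_mul hc' hu, hordc, zero_add]
  unfold lcoef
  rw [hord, mul_div_assoc]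
  unfold val
  rw [Pts.ev_mul (hRR N) Q hordc.ge (ord_lcoef_arg Q hπ hu).ge, Pts.ev_algebraMap]

/-- Galois equivariance of leading coefficients -/
theorem lcoef_gal (σ : GQ) (Q : PtN N) (π u : FN N) :
    lcoef (gal N σ • Q) (gal N σ • π) (gal N σ • u) = σ (lcoef Q π u) := by
  unfold lcoef
  rw [ord_gal, ← gal_zpow, ← gal_div, val_gal]

/-! ### the product formula -/

/-- the product `∏_Q lcoef Q (π Q) u ^ b(Q)` -/
def lcProd (π : PtN N → FN N) (u : FN N) (b : DivN N) : Qbar :=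
  ∏ Q ∈ b.support, lcoef Q (π Q) u ^ (b Q)

theorem lcProd_ne_zero (π : PtN N → FN N) (u : FN N) (hu : u ≠ 0) (b : DivN N)
    (hπ : ∀ Q ∈ b.support, Q.ord (π Q) = 1) : lcProd π u b ≠ 0 := by
  unfold lcProd
  rw [Finset.prod_ne_zero_iff]
  intro Q hQ
  exact zpow_ne_zero _ (lcoef_ne_zero Q (hπ Q hQ) hu)

theorem galStable_apply {b : DivN N} (hb : GalStable N b) (σ : GQ) (Q : PtN N) :
    b (gal N σ • Q) = b Q := by
  have h1 := SemilinearAut.divisor_smul_apply_smul (gal N σ) b Q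
  have h2 : gal N σ • b = b := hb σ
  rw [h2] at h1
  exact h1

/-- `Λ` is Galois-fixed -/
theorem lcProd_fixed (π : PtN N → FN N) (u : FN N) (hu : u ≠ 0) (b : DivN N)
    (hb : GalStable N b) (hdeg : Divisor.degree b = 0) (hdiv : GalStable N (divOf (hRR N) u))
    (hπ : ∀ Q ∈ b.support, Q.ord (π Q) = 1)
    (hπσ : ∀ (σ : GQ), ∀ Q ∈ b.support, gal N σ • π Q = π (gal N σ • Q)) (σ : GQ) :
    σ (lcProd π u b) = lcProd π u b := by
  classical
  obtain ⟨c, hc, hcu⟩ := exists_const_gal u hu hdiv σ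
  have hmem : ∀ Q ∈ b.support, gal N σ • Q ∈ b.support := by
    intro Q hQ
    rw [Finsupp.mem_support_iff] at hQ ⊢
    rwa [galStable_apply hb]
  -- the value of each factor
  have hfac : ∀ Q ∈ b.support, σ (lcoef Q (π Q) u ^ (b Q))
      = c ^ (b Q) * lcoef (gal N σ • Q) (π (gal N σ • Q)) u ^ (b (gal N σ • Q)) := by
    intro Q hQ
    rw [map_zpow₀, ← lcoef_gal, hπσ σ Q hQ, hcu,
      lcoef_const_mul _ (by rw [← hπσ σ Q hQ, ord_gal]; exact hπ Q hQ) hu hc, mul_zpow,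
      galStable_apply hb]
  unfold lcProd
  rw [map_prod, Finset.prod_congr rfl hfac, Finset.prod_mul_distrib]
  have hc1 : ∏ Q ∈ b.support, c ^ (b Q) = 1 := by
    rw [prod_zpow_const _ hc, ← degree_eq_sum (hRR N), hdeg, zpow_zero]
  rw [hc1, one_mul]
  -- reindex by `Q ↦ σ Q`
  refine Finset.prod_bij (fun Q _ => gal N σ • Q) (fun Q hQ => hmem Q hQ) ?_ ?_ (fun Q _ => rfl)
  · intro Q₁ _ Q₂ _ h12
    exact MulAction.injective (gal N σ) h12
  · intro Q hQ
    refine ⟨(gal N σ)⁻¹ • Q, ?_, smul_inv_smul _ _⟩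
    rw [Finsupp.mem_support_iff] at hQ ⊢
    have := galStable_apply hb σ ((gal N σ)⁻¹ • Q)
    rw [smul_inv_smul] at this
    rwa [← this]

/-- **The product formula with leading coefficients.** -/
theorem sum_log_lcoef_eq_zero (S : HSetup N) (π : PtN N → FN N) (u : FN N) (hu : u ≠ 0)
    (b : DivN N) (hb : GalStable N b) (hdeg : Divisor.degree b = 0)
    (hdiv : GalStable N (divOf (hRR N) u)) (hπ : ∀ Q ∈ b.support, Q.ord (π Q) = 1)
    (hπσ : ∀ (σ : GQ), ∀ Q ∈ b.support, gal N σ • π Q = π (gal N σ • Q)) :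
    ∑ᶠ v : S.𝔸.ι, ∑ Q ∈ b.support, (b Q : ℝ) * Real.log (S.𝔸.abv v (lcoef Q (π Q) u)) = 0 := by
  obtain ⟨q, hq⟩ := Fermat.Agent.S17.RatDesc.fixed_const (lcProd π u b)
    (lcProd_fixed π u hu b hb hdeg hdiv hπ hπσ)
  have hΛ0 := lcProd_ne_zero π u hu b hπ
  have hq0 : q ≠ 0 := by
    rintro rfl
    rw [map_zero] at hq
    exact hΛ0 hq.symm
  have hpf := S.𝔸.product_formula q hq0
  rw [← hpf]
  refine finsum_congr fun v => ?_
  rw [hq]
  unfold lcProd
  rw [map_prod, Real.log_prod]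
  · refine Finset.sum_congr rfl fun Q _ => ?_
    rw [map_zpow₀, Real.log_zpow]
  · intro Q hQ
    rw [map_zpow₀]
    exact zpow_ne_zero _ ((S.𝔸.abv v).ne_zero (lcoef_ne_zero Q (hπ Q hQ) hu))

/-- **Seat G1 (PROD)** as a special case. -/
theorem prodFormula' (S : HSetup N) : ProdFormula S := by
  intro u b hu hdiv hb hdeg hord
  obtain ⟨π₀, hπ₀⟩ : ∃ π : PtN N → FN N, ∀ Q, Q.ord (π Q) = 1 :=
    ⟨fun Q => (exists_uniformizer Q).choose, fun Q => (exists_uniformizer Q).choose_spec⟩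
  -- leading coefficients do not depend on the uniformizer at units: use `val`
  have key : ∀ v : S.𝔸.ι, ∑ Q ∈ b.support, (b Q : ℝ) * Real.log (S.𝔸.abv v (val Q u))
      = Real.log (S.𝔸.abv v (∏ Q ∈ b.support, val Q u ^ (b Q))) := by
    intro v
    rw [map_prod, Real.log_prod]
    · refine Finset.sum_congr rfl fun Q _ => ?_
      rw [map_zpow₀, Real.log_zpow]
    · intro Q hQ
      rw [map_zpow₀]
      exact zpow_ne_zero _ ((S.𝔸.abv v).ne_zero
        (Pts.ev_ne_zero_of_ord_eq_zero (hRR N) Q hu (hord Q hQ)))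
  have hΛ : ∏ Q ∈ b.support, val Q u ^ (b Q) = lcProd π₀ u b := by
    unfold lcProd
    refine Finset.prod_congr rfl fun Q hQ => ?_
    rw [lcoef_of_ord_eq_zero Q (π₀ Q) (hord Q hQ)]
  -- Galois invariance of the product of values (direct)
  have hfix : ∀ σ : GQ, σ (∏ Q ∈ b.support, val Q u ^ (b Q)) = ∏ Q ∈ b.support, val Q u ^ (b Q) := by
    classical
    intro σ
    obtain ⟨c, hc, hcu⟩ := exists_const_gal u hu hdiv σ
    have hmem : ∀ Q ∈ b.support, gal N σ • Q ∈ b.support := by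
      intro Q hQ
      rw [Finsupp.mem_support_iff] at hQ ⊢
      rwa [galStable_apply hb]
    have hfac : ∀ Q ∈ b.support, σ (val Q u ^ (b Q))
        = c ^ (b Q) * val (gal N σ • Q) u ^ (b (gal N σ • Q)) := by
      intro Q hQ
      have hQ' := hmem Q hQ
      rw [map_zpow₀, ← val_gal, hcu, galStable_apply hb, ← mul_zpow]
      congr 1
      have h1 := lcoef_const_mul (gal N σ • Q) (hπ₀ (gal N σ • Q)) hu hc
      rw [lcoef_of_ord_eq_zero _ _ (hord _ hQ')] at h1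
      rw [← h1]
      refine (lcoef_of_ord_eq_zero _ (π₀ (gal N σ • Q)) ?_).symm
      have hc' : algebraMap Qbar (FN N) c ≠ 0 := by
        intro h0
        exact hc ((map_eq_zero (algebraMap Qbar (FN N))).mp h0)
      rw [← hcu]
      have := ord_gal σ Q u
      rw [this]
      exact hord Q hQ
    rw [map_prod, Finset.prod_congr rfl hfac, Finset.prod_mul_distrib]
    have hc1 : ∏ Q ∈ b.support, c ^ (b Q) = 1 := by
      rw [prod_zpow_const _ hc, ← degree_eq_sum (hRR N), hdeg, zpow_zero]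
    rw [hc1, one_mul]
    refine Finset.prod_bij (fun Q _ => gal N σ • Q) (fun Q hQ => hmem Q hQ) ?_ ?_ (fun Q _ => rfl)
    · intro Q₁ _ Q₂ _ h12
      exact MulAction.injective (gal N σ) h12
    · intro Q hQ
      refine ⟨(gal N σ)⁻¹ • Q, ?_, smul_inv_smul _ _⟩
      rw [Finsupp.mem_support_iff] at hQ ⊢
      have := galStable_apply hb σ ((gal N σ)⁻¹ • Q)
      rw [smul_inv_smul] at this
      rwa [← this]
  obtain ⟨q, hq⟩ := Fermat.Agent.S17.RatDesc.fixed_const _ hfix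
  have hΛ0 : ∏ Q ∈ b.support, val Q u ^ (b Q) ≠ 0 := by
    rw [Finset.prod_ne_zero_iff]
    intro Q hQ
    exact zpow_ne_zero _ (Pts.ev_ne_zero_of_ord_eq_zero (hRR N) Q hu (hord Q hQ))
  have hq0 : q ≠ 0 := by
    rintro rfl
    rw [map_zero] at hq
    exact hΛ0 hq.symm
  rw [finsum_congr key, ← hq]
  exact S.𝔸.product_formula q hq0

end Fermat.Agent.S17.Pairing
end
end MergeWrap_S17_H_Pairing_ProdLC
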