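import Mathlib
import Fermat.Agent.MUL.S17.H.Pairing.Green
import Fermat.Agent.MUL.S17.H.MoveGlobal
import Fermat.Agent.MUL.S17.H.Pairing.LocalQuot
import Fermat.Agent.MUL.S17.H.Pairing.Sections
import Fermat.Agent.MUL.S17.H.Pairing.ProdLC
import Fermat.Agent.MUL.S17.H.Pos.Defs

section MergeWrap_S17_H_Pairing_Main -- from S17/H/Pairing/Main.lean

set_option autoImplicit false
set_option linter.unusedSectionVars false

/-!
# S17, package H, seat G4 (PAIR): the height pairing from the principal bound

`pairingThm_of S hPB : PairingThm S` where `hPB : PrincipalBounded S` is seat G2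
(`|I(div u, b)| ≤ C₀`).  The pairing is `pair x y = (p x y + p y x) / 2`, `p x y = I(a,b)` for
chosen admissible representatives with disjoint supports (`Move.exists_isRep_disjoint`).
Constant: `C = 10 C₀`.
-/

noncomputable section

open AlgebraicCurve ModularCurve Fermat.Agent.RR

namespace Fermat.Agent.S17.Pairing

variable {N : ℕ} [NeZero N]

/-! ### sizes and Galois stability -/

theorem dsize_eq_sum_of_subset (D : DivN N) {T : Finset (PtN N)} (hT : D.support ⊆ T) :
    dsize D = ∑ P ∈ T, (D P).natAbs := by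
  unfold dsize
  refine Finset.sum_subset hT fun P _ hP => ?_
  rw [Finsupp.notMem_support_iff.mp hP]
  rfl

theorem dsize_add_le (D D' : DivN N) : dsize (D + D') ≤ dsize D + dsize D' := by
  classical
  rw [dsize_eq_sum_of_subset (D + D') (T := D.support ∪ D'.support) Finsupp.support_add,
    dsize_eq_sum_of_subset D (T := D.support ∪ D'.support) Finset.subset_union_left,
    dsize_eq_sum_of_subset D' (T := D.support ∪ D'.support) Finset.subset_union_right,
    ← Finset.sum_add_distrib]
  refine Finset.sum_le_sum fun P _ => ?_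
  rw [Finsupp.add_apply]
  exact Int.natAbs_add_le _ _

theorem dsize_neg (D : DivN N) : dsize (-D) = dsize D := by
  unfold dsize
  rw [Finsupp.support_neg]
  refine Finset.sum_congr rfl fun P _ => ?_
  rw [Finsupp.neg_apply, Int.natAbs_neg]

theorem dsize_sub_le' (D D' : DivN N) : dsize (D - D') ≤ dsize D + dsize D' := by
  rw [sub_eq_add_neg]
  refine (dsize_add_le _ _).trans ?_
  rw [dsize_neg]

theorem galStable_sub {D D' : DivN N} (h : GalStable N D) (h' : GalStable N D') :
    GalStable N (D - D') := by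
  intro σ
  have h1 := h σ
  have h2 := h' σ
  unfold galDiv at h1 h2 ⊢
  rw [smul_sub, h1, h2]

theorem galStable_add {D D' : DivN N} (h : GalStable N D) (h' : GalStable N D') :
    GalStable N (D + D') := by
  intro σ
  have h1 := h σ
  have h2 := h' σ
  unfold galDiv at h1 h2 ⊢
  rw [smul_add, h1, h2]

theorem disjoint_support_sub {D D' b : DivN N} (h : Disjoint D.support b.support)
    (h' : Disjoint D'.support b.support) : Disjoint (D - D').support b.support := by
  classical
  exact Finset.disjoint_of_subset_left Finsupp.support_sub (Finset.disjoint_union_left.mpr ⟨h, h'⟩)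

theorem disjoint_support_add {D D' b : DivN N} (h : Disjoint D.support b.support)
    (h' : Disjoint D'.support b.support) : Disjoint (D + D').support b.support := by
  classical
  exact Finset.disjoint_of_subset_left Finsupp.support_add (Finset.disjoint_union_left.mpr ⟨h, h'⟩)

theorem disjoint_of_forall_eq_zero {a b : DivN N} (h : ∀ P ∈ b.support, a P = 0) :
    Disjoint a.support b.support := by
  rw [Finset.disjoint_left]
  intro P hPa hPb
  exact (Finsupp.mem_support_iff.mp hPa) (h P hPb)

/-! ### representatives -/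

theorem isRep_rep {S : HSetup N} {x : JZero N} {a : DivN N} (ha : IsRep S x a) :
    Move.Rep a x := ⟨ha.mem, ha.mk_eq⟩

theorem isRep_degree_eq {S : HSetup N} {x : JZero N} {a : DivN N} (ha : IsRep S x a) :
    Divisor.degree a = 0 := Divisor.mem_degZero.mp ha.mem

theorem rep_add {x x' : JZero N} {a a' : DivN N} (ha : Move.Rep a x) (ha' : Move.Rep a' x') :
    Move.Rep (a + a') (x + x') := by
  obtain ⟨h1, e1⟩ := ha
  obtain ⟨h2, e2⟩ := ha'
  refine ⟨add_mem h1 h2, ?_⟩
  rw [← e1, ← e2, ← Pic0.mk_add]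
  rfl

/-- two representatives of the same class differ by a principal divisor -/
theorem exists_divOf_sub {x : JZero N} {a a' : DivN N} (ha : Move.Rep a x)
    (ha' : Move.Rep a' x) : ∃ u : FN N, u ≠ 0 ∧ a - a' = divOf (hRR N) u :=
  Move.exists_divOf_of_mem_principal (hRR N) (Move.Rep.sub_mem_principal ha' ha)

/-! ### consequences of the principal bound -/

/-- the principal bound with the constant made explicit -/
def PrincipalBoundedBy (S : HSetup N) (C₀ : ℝ) : Prop :=
  ∀ (u : FN N) (b : DivN N), u ≠ 0 → GalStable N (divOf (hRR N) u) → GalStable N b →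
    Divisor.degree b = 0 → dsize (divOf (hRR N) u) ≤ 12 * S.s → dsize b ≤ 4 * S.s →
    Disjoint (divOf (hRR N) u).support b.support → |iPair S (divOf (hRR N) u) b| ≤ C₀

/-- general form: a Galois-stable divisor `D` of size `≤ 12 s` in the trivial class -/
theorem abs_iPair_le_of_rep_zero {S : HSetup N} {C₀ : ℝ} (hC : PrincipalBoundedBy S C₀)
    {D D' b : DivN N} {x : JZero N} (hD : Move.Rep D x) (hD' : Move.Rep D' x)
    (hDs : GalStable N D) (hDs' : GalStable N D') (hsize : dsize D + dsize D' ≤ 12 * S.s)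
    (hb : GalStable N b) (hb0 : Divisor.degree b = 0) (hbs : dsize b ≤ 4 * S.s)
    (hd : Disjoint D.support b.support) (hd' : Disjoint D'.support b.support) :
    |iPair S D b - iPair S D' b| ≤ C₀ := by
  obtain ⟨u, hu0, hu⟩ := exists_divOf_sub hD hD'
  rw [← iPair_sub_left, hu]
  refine hC u b hu0 ?_ hb hb0 ?_ hbs ?_
  · rw [← hu]
    exact galStable_sub hDs hDs'
  · rw [← hu]
    exact (dsize_sub_le' D D').trans hsize
  · rw [← hu]
    exact disjoint_support_sub hd hd'

/-- independence of the representative of `x` -/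
theorem abs_iPair_sub_le_left {S : HSetup N} {C₀ : ℝ} (hC : PrincipalBoundedBy S C₀)
    {x y : JZero N} {a a' b : DivN N} (ha : IsRep S x a) (ha' : IsRep S x a')
    (hb : IsRep S y b) (hd : Disjoint a.support b.support) (hd' : Disjoint a'.support b.support) :
    |iPair S a b - iPair S a' b| ≤ C₀ := by
  refine abs_iPair_le_of_rep_zero hC (isRep_rep ha) (isRep_rep ha') ha.galStable ha'.galStable ?_ hb.galStable
    (isRep_degree_eq hb) ?_ hd hd'
  · have h1 := ha.size_le
    have h2 := ha'.size_le
    omega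
  · have h1 := hb.size_le
    omega

/-- independence of the representative of `y` -/
theorem abs_iPair_sub_le_right {S : HSetup N} {C₀ : ℝ} (hC : PrincipalBoundedBy S C₀)
    {x y : JZero N} {a b b' : DivN N} (ha : IsRep S x a) (hb : IsRep S y b)
    (hb' : IsRep S y b') (hd : Disjoint a.support b.support) (hd' : Disjoint a.support b'.support) :
    |iPair S a b - iPair S a b'| ≤ C₀ := by
  rw [iPair_symm S a b, iPair_symm S a b']
  exact abs_iPair_sub_le_left hC hb hb' ha hd.symm hd'.symm

/-- independence of both representatives -/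
theorem abs_iPair_sub_le (S : HSetup N) {C₀ : ℝ} (hC : PrincipalBoundedBy S C₀)
    (x y : MW N) {a a' b b' : DivN N} (ha : IsRep S (x : JZero N) a)
    (ha' : IsRep S (x : JZero N) a') (hb : IsRep S (y : JZero N) b)
    (hb' : IsRep S (y : JZero N) b') (hd : Disjoint a.support b.support)
    (hd' : Disjoint a'.support b'.support) :
    |iPair S a b - iPair S a' b'| ≤ 3 * C₀ := by
  classical
  obtain ⟨a'', ha'', hT⟩ := Move.exists_isRep S x (b.support ∪ b'.support)
  have d1 : Disjoint a''.support b.support :=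
    disjoint_of_forall_eq_zero fun P hP => hT P (Finset.mem_union_left _ hP)
  have d2 : Disjoint a''.support b'.support :=
    disjoint_of_forall_eq_zero fun P hP => hT P (Finset.mem_union_right _ hP)
  have e1 := abs_le.mp (abs_iPair_sub_le_left hC ha ha'' hb hd d1)
  have e2 := abs_le.mp (abs_iPair_sub_le_right hC ha'' hb hb' d1 d2)
  have e3 := abs_le.mp (abs_iPair_sub_le_left hC ha'' ha' hb' d2 hd')
  rw [abs_le]
  constructor <;> linarith [e1.1, e1.2, e2.1, e2.2, e3.1, e3.2]

/-- quasi-additivity on representatives -/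
theorem abs_iPair_add_le {S : HSetup N} {C₀ : ℝ} (hC : PrincipalBoundedBy S C₀)
    {x x' y : JZero N} {a a' a'' b : DivN N} (ha : IsRep S x a) (ha' : IsRep S x' a')
    (ha'' : IsRep S (x + x') a'') (hb : IsRep S y b) (hd : Disjoint a.support b.support)
    (hd' : Disjoint a'.support b.support) (hd'' : Disjoint a''.support b.support) :
    |iPair S a'' b - iPair S a b - iPair S a' b| ≤ C₀ := by
  have h := abs_iPair_le_of_rep_zero hC (isRep_rep ha'') (rep_add (isRep_rep ha) (isRep_rep ha')) ha''.galStable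
    (galStable_add ha.galStable ha'.galStable) ?_ hb.galStable (isRep_degree_eq hb) ?_ hd''
    (disjoint_support_add hd hd')
  · rw [iPair_add_left] at h
    rwa [sub_sub]
  · have h1 := ha.size_le
    have h2 := ha'.size_le
    have h3 := ha''.size_le
    have h4 := dsize_add_le a a'
    omega
  · have h1 := hb.size_le
    omega

/-! ### the pairing -/

/-- chosen representatives with disjoint supports -/
def chosenRep (S : HSetup N) (x y : MW N) : DivN N × DivN N :=
  ((Move.exists_isRep_disjoint S x y ∅).choose,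
    (Move.exists_isRep_disjoint S x y ∅).choose_spec.choose)

theorem chosenRep_spec (S : HSetup N) (x y : MW N) :
    IsRep S (x : JZero N) (chosenRep S x y).1 ∧ IsRep S (y : JZero N) (chosenRep S x y).2 ∧
      Disjoint (chosenRep S x y).1.support (chosenRep S x y).2.support := by
  have h := (Move.exists_isRep_disjoint S x y ∅).choose_spec.choose_spec
  exact ⟨h.1, h.2.1, h.2.2.1⟩

/-- the unsymmetrised pairing -/
def prePair (S : HSetup N) (x y : MW N) : ℝ :=
  iPair S (chosenRep S x y).1 (chosenRep S x y).2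

/-- the pairing -/
def hpair (S : HSetup N) (x y : MW N) : ℝ := (prePair S x y + prePair S y x) / 2

theorem hpair_symm (S : HSetup N) (x y : MW N) : hpair S x y = hpair S y x := by
  unfold hpair
  rw [add_comm]

theorem abs_prePair_sub_le (S : HSetup N) {C₀ : ℝ} (hC : PrincipalBoundedBy S C₀)
    (x y : MW N) {a b : DivN N} (ha : IsRep S (x : JZero N) a) (hb : IsRep S (y : JZero N) b)
    (hd : Disjoint a.support b.support) : |prePair S x y - iPair S a b| ≤ 3 * C₀ := by
  obtain ⟨h1, h2, h3⟩ := chosenRep_spec S x y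
  exact abs_iPair_sub_le S hC x y h1 ha h2 hb h3 hd

theorem abs_hpair_sub_le (S : HSetup N) {C₀ : ℝ} (hC : PrincipalBoundedBy S C₀)
    (x y : MW N) {a b : DivN N} (ha : IsRep S (x : JZero N) a) (hb : IsRep S (y : JZero N) b)
    (hd : Disjoint a.support b.support) : |hpair S x y - iPair S a b| ≤ 3 * C₀ := by
  have e1 := abs_le.mp (abs_prePair_sub_le S hC x y ha hb hd)
  have e2 := abs_le.mp (abs_prePair_sub_le S hC y x hb ha hd.symm)
  rw [iPair_symm S b a] at e2
  unfold hpair
  rw [abs_le]
  constructor <;> linarith [e1.1, e1.2, e2.1, e2.2]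

theorem principalBoundedBy_nonneg {S : HSetup N} {C₀ : ℝ} (hC : PrincipalBoundedBy S C₀) :
    0 ≤ C₀ := by
  have h1 : divOf (hRR N) (1 : FN N) = 0 := divOf_one (hRR N)
  have hz : GalStable N (0 : DivN N) := by
    intro σ
    unfold galDiv
    rw [smul_zero]
  have h := hC 1 0 one_ne_zero (by rw [h1]; exact hz) hz (map_zero _)
    (by rw [h1]; simp [dsize]) (by simp [dsize]) (by rw [h1]; simp)
  exact le_trans (abs_nonneg _) h

/-- **Seat G4 (PAIR).** -/
theorem pairingThm_of_boundedBy (S : HSetup N) {C₀ : ℝ} (hC : PrincipalBoundedBy S C₀) :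
    PairingThm S := by
  classical
  have hC0 : 0 ≤ C₀ := principalBoundedBy_nonneg hC
  refine ⟨hpair S, 10 * C₀, hpair_symm S, ?_, ?_⟩
  · intro x x' y
    obtain ⟨b, hb, -⟩ := Move.exists_isRep S y ∅
    obtain ⟨a, ha, haT⟩ := Move.exists_isRep S x b.support
    obtain ⟨a', ha', haT'⟩ := Move.exists_isRep S x' b.support
    obtain ⟨a'', ha'', haT''⟩ := Move.exists_isRep S (x + x') b.support
    have d := disjoint_of_forall_eq_zero haT
    have d' := disjoint_of_forall_eq_zero haT'
    have d'' := disjoint_of_forall_eq_zero haT''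
    have e1 := abs_le.mp (abs_hpair_sub_le S hC x y ha hb d)
    have e2 := abs_le.mp (abs_hpair_sub_le S hC x' y ha' hb d')
    have e3 := abs_le.mp (abs_hpair_sub_le S hC (x + x') y ha'' hb d'')
    have ha''' : IsRep S ((x : JZero N) + (x' : JZero N)) a'' := ha''
    have e4 := abs_le.mp (abs_iPair_add_le hC ha ha' ha''' hb d d' d'')
    rw [abs_le]
    constructor <;> linarith [e1.1, e1.2, e2.1, e2.2, e3.1, e3.2, e4.1, e4.2]
  · intro x y a b ha hb hd
    have := abs_hpair_sub_le S hC x y ha hb hd
    linarith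

/-- **Seat GA, assembly**: the pairing theorem from the principal bound (seat G2). -/
theorem pairingThm_of (S : HSetup N) (hPB : PrincipalBounded S) : PairingThm S := by
  obtain ⟨C₀, hC⟩ := hPB
  exact pairingThm_of_boundedBy S hC

end Fermat.Agent.S17.Pairing
end
end MergeWrap_S17_H_Pairing_Main

section MergeWrap_S17_H_Pairing_PrincipalAsm -- from S17/H/Pairing/PrincipalAsm.lean

set_option autoImplicit false
set_option linter.unusedSectionVars false

/-!
# S17, package H, seat G2, global part: the principal bound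

`principalBounded_of S b hLD hP : PrincipalBounded S` from the local decomposition theorem at
`j = 1` (`hLD`) and the product formula (`hP : ProdFormula S`, seat G1):
`|I(div u, b)| ≤ 2 · Σ_v γ_v · 4 s`.
-/

noncomputable section

open AlgebraicCurve ModularCurve Fermat.Agent.RR

namespace Fermat.Agent.S17.Pairing

variable {N : ℕ} [NeZero N]

theorem abs_finsum_le_finsum {ι : Type*} (X Y : ι → ℝ) (hXY : ∀ v, |X v| ≤ Y v)
    (hY : (Function.support Y).Finite) : |∑ᶠ v, X v| ≤ ∑ᶠ v, Y v := by
  have hX : Function.support X ⊆ Function.support Y := by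
    intro v hv
    rw [Function.mem_support] at hv ⊢
    intro h0
    apply hv
    have := hXY v
    rw [h0] at this
    exact abs_nonpos_iff.mp this
  rw [finsum_eq_sum_of_support_subset X (s := hY.toFinset) (by simpa using hX),
    finsum_eq_sum_of_support_subset Y (s := hY.toFinset) (by simp)]
  exact (Finset.abs_sum_le_sum_abs _ _).trans (Finset.sum_le_sum fun v _ => hXY v)

/-- `log |a|_v = 0` for almost all `v` -/
theorem finite_log_abv_ne_zero (𝔸 : AbsSys) (a : Qbar) :
    {v : 𝔸.ι | Real.log (𝔸.abv v a) ≠ 0}.Finite := by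
  rcases eq_or_ne a 0 with rfl | ha
  · have : {v : 𝔸.ι | Real.log (𝔸.abv v (0 : Qbar)) ≠ 0} = ∅ := by
      ext v
      simp
    rw [this]
    exact Set.finite_empty
  · refine (𝔸.finite_ne_one a ha).subset ?_
    intro v hv
    simp only [Set.mem_ofPred_eq, ne_eq] at hv ⊢
    intro h1
    apply hv
    rw [h1, Real.log_one]

/-- the `v`-component of `iPair` in terms of `glin` -/
theorem sum_mul_glin (S : HSetup N) (v : S.𝔸.ι) (b D : DivN N) :
    ∑ Q ∈ b.support, (b Q : ℝ) * glin S v Q D
      = ∑ P ∈ b.support, ∑ Q ∈ D.support, (b P : ℝ) * (D Q : ℝ) * gloc S.𝔸 v S.φ P Q := by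
  refine Finset.sum_congr rfl fun P _ => ?_
  unfold glin
  rw [Finset.mul_sum]
  refine Finset.sum_congr rfl fun Q _ => ?_
  ring

theorem finite_support_sum_glin (S : HSetup N) (b D : DivN N) :
    (Function.support fun v : S.𝔸.ι => ∑ Q ∈ b.support, (b Q : ℝ) * glin S v Q D).Finite := by
  classical
  have hfin : (⋃ P ∈ b.support, ⋃ Q ∈ D.support,
      {v : S.𝔸.ι | gloc S.𝔸 v S.φ P Q ≠ 0}).Finite :=
    Set.Finite.biUnion b.support.finite_toSet fun P _ =>
      Set.Finite.biUnion D.support.finite_toSet fun Q _ => glocFinite S P Q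
  refine hfin.subset ?_
  intro v hv
  rw [Function.mem_support, sum_mul_glin] at hv
  obtain ⟨P, hP, hne⟩ := Finset.exists_ne_zero_of_sum_ne_zero hv
  obtain ⟨Q, hQ, hne'⟩ := Finset.exists_ne_zero_of_sum_ne_zero hne
  simp only [Set.mem_iUnion, Set.mem_ofPred_eq]
  refine ⟨P, hP, Q, hQ, ?_⟩
  intro h0
  apply hne'
  rw [h0, mul_zero]

theorem finite_support_sum_log (S : HSetup N) (b : DivN N) (u : FN N) :
    (Function.support fun v : S.𝔸.ι =>
      ∑ Q ∈ b.support, (b Q : ℝ) * Real.log (S.𝔸.abv v (val Q u))).Finite := by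
  classical
  have hfin : (⋃ Q ∈ b.support, {v : S.𝔸.ι | Real.log (S.𝔸.abv v (val Q u)) ≠ 0}).Finite :=
    Set.Finite.biUnion b.support.finite_toSet fun Q _ => finite_log_abv_ne_zero S.𝔸 _
  refine hfin.subset ?_
  intro v hv
  rw [Function.mem_support] at hv
  obtain ⟨Q, hQ, hne⟩ := Finset.exists_ne_zero_of_sum_ne_zero hv
  simp only [Set.mem_iUnion, Set.mem_ofPred_eq]
  refine ⟨Q, hQ, ?_⟩
  intro h0
  apply hne
  rw [h0, mul_zero]

theorem iPair_eq_finsum_glin (S : HSetup N) (b D : DivN N) :
    iPair S b D = ∑ᶠ v : S.𝔸.ι, ∑ Q ∈ b.support, (b Q : ℝ) * glin S v Q D := by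
  unfold iPair
  exact finsum_congr fun v => (sum_mul_glin S v b D).symm

/-- **the principal bound with explicit constant** -/
theorem abs_iPair_divOf_le (S : HSetup N) {d : ℕ}
    (bas : Module.Basis (Fin (d + 1)) Qbar (secSpace S.P₀ S.e 1)) {γ : MConst S.𝔸}
    (hγ : LocalQuot S bas γ) (hP : ProdFormula S) (u : FN N) (b : DivN N) (hu : u ≠ 0)
    (hstab : GalStable N (divOf (hRR N) u)) (hb : GalStable N b) (hdeg : Divisor.degree b = 0)
    (hsize : dsize (divOf (hRR N) u) ≤ 12 * S.s)
    (hdisj : Disjoint (divOf (hRR N) u).support b.support) :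
    |iPair S (divOf (hRR N) u) b| ≤ 2 * γ.total * dsize b := by
  classical
  have h := hRR N
  obtain ⟨f₁, f₂, hf₁, hf₁0, hf₂, hf₂0, hq⟩ := exists_sections S u hu hsize
  have hD : divOf h u = divOf h f₁ - divOf h f₂ := by
    rw [← hq]
    exact divOf_div f₁ f₂ hf₁0 hf₂0
  -- at the points of `b` the function `u` is a unit
  have hord : ∀ Q ∈ b.support, Q.ord u = 0 := by
    intro Q hQ
    have := Finset.disjoint_right.mp hdisj hQ
    rw [Finsupp.mem_support_iff, not_not, divOf_apply] at this
    exact this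
  have hord' : ∀ Q ∈ b.support, Q.ord f₁ = Q.ord f₂ := by
    intro Q hQ
    have h1 := hord Q hQ
    rw [← hq, div_eq_mul_inv, Q.ord_mul hf₁0 (inv_ne_zero hf₂0), Q.ord_inv] at h1
    omega
  -- the local estimate, summed over the points of `b`
  set κ : S.𝔸.ι → ℝ := fun v =>
    Real.log (cnorm S.𝔸 v bas f₁) - Real.log (cnorm S.𝔸 v bas f₂) with hκ
  set X : S.𝔸.ι → ℝ := fun v => ∑ Q ∈ b.support,
    (b Q : ℝ) * (Real.log (S.𝔸.abv v (val Q u)) + glin S v Q (divOf h u)) with hX
  have hsum0 : ∑ Q ∈ b.support, (b Q : ℝ) = 0 := by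
    have := degree_eq_sum h b
    rw [hdeg] at this
    have h2 : ((∑ Q ∈ b.support, b Q : ℤ) : ℝ) = 0 := by
      rw [← this]
      norm_cast
    push_cast at h2
    exact h2
  have hloc : ∀ v, |X v| ≤ 2 * γ v * dsize b := by
    intro v
    have e1 : X v = ∑ Q ∈ b.support, (b Q : ℝ) *
        (Real.log (S.𝔸.abv v (val Q u)) - κ v + glin S v Q (divOf h u)) := by
      have : ∑ Q ∈ b.support, (b Q : ℝ) *
          (Real.log (S.𝔸.abv v (val Q u)) - κ v + glin S v Q (divOf h u))
          = X v - (∑ Q ∈ b.support, (b Q : ℝ)) * κ v := by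
        rw [hX, Finset.sum_mul, ← Finset.sum_sub_distrib]
        refine Finset.sum_congr rfl fun Q _ => ?_
        ring
      rw [this, hsum0, zero_mul, sub_zero]
    rw [e1]
    refine (Finset.abs_sum_le_sum_abs _ _).trans ?_
    have e2 : (2 * γ v * dsize b : ℝ) = ∑ Q ∈ b.support, |(b Q : ℝ)| * (2 * γ v) := by
      rw [← Finset.sum_mul]
      unfold dsize
      push_cast
      rw [mul_comm]
      congr 1
      refine Finset.sum_congr rfl fun Q _ => ?_
      rw [Nat.cast_natAbs, Int.cast_abs]
    rw [e2]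
    refine Finset.sum_le_sum fun Q hQ => ?_
    rw [abs_mul]
    refine mul_le_mul_of_nonneg_left ?_ (abs_nonneg _)
    have := hγ v f₁ f₂ hf₁ hf₁0 hf₂ hf₂0 Q (hord' Q hQ)
    rw [hq, ← hD] at this
    exact this
  -- sum over `v`
  have hXsplit : ∑ᶠ v, X v = iPair S b (divOf h u) := by
    have e1 : X = fun v => (∑ Q ∈ b.support, (b Q : ℝ) * Real.log (S.𝔸.abv v (val Q u)))
        + ∑ Q ∈ b.support, (b Q : ℝ) * glin S v Q (divOf h u) := by
      funext v
      rw [hX, ← Finset.sum_add_distrib]
      refine Finset.sum_congr rfl fun Q _ => ?_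
      ring
    rw [e1, finsum_add_distrib (finite_support_sum_log S b u)
      (finite_support_sum_glin S b (divOf h u)), hP u b hu hstab hb hdeg hord, zero_add,
      iPair_eq_finsum_glin]
  have hY : (Function.support fun v : S.𝔸.ι => 2 * γ v * (dsize b : ℝ)).Finite := by
    refine γ.finite.subset ?_
    intro v hv
    rw [Function.mem_support] at hv
    simp only [Set.mem_ofPred_eq, ne_eq]
    intro h0
    apply hv
    show 2 * γ.c v * (dsize b : ℝ) = 0
    rw [h0]
    ring
  have hfinal := abs_finsum_le_finsum X (fun v => 2 * γ v * (dsize b : ℝ)) hloc hY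
  rw [hXsplit] at hfinal
  rw [iPair_symm]
  refine hfinal.trans (le_of_eq ?_)
  have : (fun v : S.𝔸.ι => 2 * γ v * (dsize b : ℝ))
      = fun v => (2 * (dsize b : ℝ)) * γ v := by
    funext v
    ring
  rw [this, ← mul_finsum]
  unfold MConst.total
  ring

/-- **Seat G2 (GFUND / PRINCIPAL)**: the principal bound, from the local decomposition theorem
at `j = 1` and the product formula. -/
theorem principalBounded_of (S : HSetup N) {d : ℕ}
    (bas : Module.Basis (Fin (d + 1)) Qbar (secSpace S.P₀ S.e 1))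
    (hLD : LocalDecomp S.𝔸 (hRR N) S.P₀ S.e S.φ 1 bas) (hP : ProdFormula S) :
    PrincipalBounded S := by
  obtain ⟨γ, hγ⟩ := exists_localQuot S bas hLD
  refine ⟨2 * γ.total * (4 * S.s : ℕ), ?_⟩
  intro u b hu hstab hb hdeg hsize hbsize hdisj
  refine (abs_iPair_divOf_le S bas hγ hP u b hu hstab hb hdeg hsize hdisj).trans ?_
  refine mul_le_mul_of_nonneg_left ?_ (mul_nonneg zero_le_two γ.total_nonneg)
  exact_mod_cast hbsize

end Fermat.Agent.S17.Pairing
end
end MergeWrap_S17_H_Pairing_PrincipalAsm

section MergeWrap_S17_H_Pairing_Final -- from S17/H/Pairing/Final.lean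

set_option autoImplicit false
set_option linter.unusedSectionVars false

/-!
# S17, package H, seat GA: the pairing theorem from the local decomposition theorem

* `pairingThm_of_localDecomp S bas hLD hP : PairingThm S`, where
  `hLD : LocalDecomp S.𝔸 (hRR N) S.P₀ S.e S.φ 1 bas` (seats L6 + L7 at `j = 1`, any basis `bas`
  of `V₁ = L(e P₀)`) and `hP : ProdFormula S` (seat G1);
* `localDecomp_of_ge_le` : `LocalDecompGe` + `LocalDecompLe` ⟹ `LocalDecomp`;
* `pairingThm S bas hLD : PairingThm S`  (G1 = `prodFormula'`, `Pairing/ProdLC.lean`);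
* `pairingThm_of_ge_le S bas hGe hLe : PairingThm S`.
-/

noncomputable section

open AlgebraicCurve ModularCurve Fermat.Agent.RR

namespace Fermat.Agent.S17.Pairing

variable {N : ℕ} [NeZero N]

/-- **Seat GA**, with the product formula as a hypothesis. -/
theorem pairingThm_of_localDecomp (S : HSetup N) {d : ℕ}
    (bas : Module.Basis (Fin (d + 1)) Qbar (secSpace S.P₀ S.e 1))
    (hLD : LocalDecomp S.𝔸 (hRR N) S.P₀ S.e S.φ 1 bas) (hP : ProdFormula S) :
    PairingThm S :=
  pairingThm_of S (principalBounded_of S bas hLD hP)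

/-- the two halves of the local decomposition theorem give the theorem -/
theorem localDecomp_of_ge_le {F : Type*} [Field F] [Algebra Qbar F] (𝔸 : AbsSys)
    (h : IsRRField Qbar F) (P₀ : Place Qbar F) (e : ℕ) {r : ℕ} (φ : Fin (r + 1) → F) (j : ℕ)
    {d : ℕ} (b : Module.Basis (Fin (d + 1)) Qbar (secSpace P₀ e j))
    (hGe : LocalDecompGe 𝔸 h P₀ e φ j b) (hLe : LocalDecompLe 𝔸 h P₀ e φ j b) :
    LocalDecomp 𝔸 h P₀ e φ j b := by
  obtain ⟨γ₁, h₁⟩ := hGe
  obtain ⟨γ₂, h₂⟩ := hLe
  refine ⟨γ₁ + γ₂, ?_⟩
  intro v f hf hf0 P π hπ m hm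
  have e1 := h₁ v f hf hf0 P π hπ m hm
  have e2 := h₂ v f hf hf0 P π hπ m hm
  have n1 := γ₁.nonneg v
  have n2 := γ₂.nonneg v
  rw [MConst.add_apply, abs_le]
  constructor <;> linarith

/-- **Seat GA: the height pairing**, from the local decomposition theorem at `j = 1`. -/
theorem pairingThm (S : HSetup N) {d : ℕ}
    (bas : Module.Basis (Fin (d + 1)) Qbar (secSpace S.P₀ S.e 1))
    (hLD : LocalDecomp S.𝔸 (hRR N) S.P₀ S.e S.φ 1 bas) : PairingThm S :=
  pairingThm_of_localDecomp S bas hLD (prodFormula' S)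

/-- **Seat GA: the height pairing**, from the two halves (seats L6, L7) at `j = 1`. -/
theorem pairingThm_of_ge_le (S : HSetup N) {d : ℕ}
    (bas : Module.Basis (Fin (d + 1)) Qbar (secSpace S.P₀ S.e 1))
    (hGe : LocalDecompGe S.𝔸 (hRR N) S.P₀ S.e S.φ 1 bas)
    (hLe : LocalDecompLe S.𝔸 (hRR N) S.P₀ S.e S.φ 1 bas) : PairingThm S :=
  pairingThm S bas (localDecomp_of_ge_le S.𝔸 (hRR N) S.P₀ S.e S.φ 1 bas hGe hLe)

end Fermat.Agent.S17.Pairing
end
end MergeWrap_S17_H_Pairing_Final
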